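import Fermat.Agent.S49.Algebra

set_option autoImplicit false

/-!
# S41 / T7 : lying over + Deligne--Serre lifting on a stable subspace (abstract)
-/

namespace Fermat.Agent.S41.Alg

open Fermat.Agent.S49

/-- the surjection from noncommutative to commutative polynomials. -/
noncomputable def toMv : FreeAlgebra ℤ ℕ →ₐ[ℤ] MvPolynomial ℕ ℤ :=
  FreeAlgebra.lift ℤ (fun ℓ => (MvPolynomial.X ℓ : MvPolynomial ℕ ℤ))

theorem toMv_surjective : Function.Surjective toMv := by
  intro x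
  induction x using MvPolynomial.induction_on with
  | C c => exact ⟨algebraMap ℤ _ c, by rw [AlgHom.commutes]; rfl⟩
  | add x y hx hy =>
    obtain ⟨a, rfl⟩ := hx
    obtain ⟨b, rfl⟩ := hy
    exact ⟨a + b, map_add _ _ _⟩
  | mul_X x n hx =>
    obtain ⟨a, rfl⟩ := hx
    exact ⟨a * FreeAlgebra.ι ℤ n, by rw [map_mul, toMv, FreeAlgebra.lift_ι_apply]⟩

theorem aeval_toMv {A : Type*} [CommRing A] (t : ℕ → A) (P : FreeAlgebra ℤ ℕ) :
    MvPolynomial.aeval t (toMv P) = FreeAlgebra.lift ℤ t P := by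
  have h : (MvPolynomial.aeval t).comp toMv = FreeAlgebra.lift ℤ t := by
    apply FreeAlgebra.hom_ext
    funext ℓ
    simp [toMv]
  exact DFunLike.congr_fun h P

theorem exists_character_mod {T V : Type*} [CommRing T] [Module.Finite ℤ T] [AddCommGroup V]
    [Module ℂ V] (φ : T →+* Module.End ℂ V) (Vn : Submodule ℂ V)
    (hst : ∀ t : T, ∀ v ∈ Vn, φ t v ∈ Vn)
    (p : ℕ) [Fact p.Prime] (tG : ℕ → T) (ab : ℕ → ZMod p)
    (hev : ∀ P : FreeAlgebra ℤ ℕ, (∀ v ∈ Vn, φ (FreeAlgebra.lift ℤ tG P) v = 0) →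
      FreeAlgebra.lift ℤ ab P = 0) :
    ∃ (v : V) (χ : T →+* ℂ) (χ' : T →+* integralClosure ℤ ℂ)
      (𝔪' : Ideal (integralClosure ℤ ℂ)),
      v ∈ Vn ∧ v ≠ 0 ∧ (∀ t, φ t v = χ t • v) ∧ (∀ t, (χ' t : ℂ) = χ t) ∧ 𝔪'.IsMaximal ∧
      (p : integralClosure ℤ ℂ) ∈ 𝔪' ∧
      (∀ t : T, (∀ v ∈ Vn, φ t v = 0) → χ t = 0) ∧
      ∀ (ℓ : ℕ) (b : ℤ), (b : ZMod p) = ab ℓ →
        χ' (tG ℓ) - (b : integralClosure ℤ ℂ) ∈ 𝔪' := by
  classical
  -- the annihilator of `Vn`
  let I : Ideal T :=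
    { carrier := {t | ∀ v ∈ Vn, φ t v = 0}
      add_mem' := by
        intro s t hs ht v hv
        rw [map_add, LinearMap.add_apply, hs v hv, ht v hv, add_zero]
      zero_mem' := by
        intro v _
        rw [map_zero, LinearMap.zero_apply]
      smul_mem' := by
        intro c t ht v hv
        rw [smul_eq_mul, map_mul, Module.End.mul_apply, ht v hv, map_zero] }
  have hI : ∀ t, t ∈ I ↔ ∀ v ∈ Vn, φ t v = 0 := fun t => Iff.rfl
  let ψ : T →+* Module.End ℂ Vn :=
    { toFun := fun t => (φ t).restrict (hst t)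
      map_one' := by
        apply LinearMap.ext
        intro v
        apply Subtype.ext
        simp
      map_mul' := by
        intro s t
        apply LinearMap.ext
        intro v
        apply Subtype.ext
        simp [LinearMap.restrict_coe_apply]
      map_zero' := by
        apply LinearMap.ext
        intro v
        apply Subtype.ext
        simp
      map_add' := by
        intro s t
        apply LinearMap.ext
        intro v
        apply Subtype.ext
        simp [LinearMap.restrict_coe_apply] }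
  have hψ : ∀ (t : T) (v : Vn), ((ψ t v : Vn) : V) = φ t v := fun t v => rfl
  have hψI : ∀ t : T, t ∈ I → ψ t = 0 := by
    intro t ht
    apply LinearMap.ext
    intro v
    apply Subtype.ext
    rw [hψ]
    exact ht v v.2
  let φn : T ⧸ I →+* Module.End ℂ Vn := Ideal.Quotient.lift I ψ hψI
  have hφn : ∀ t : T, φn (Ideal.Quotient.mk I t) = ψ t := fun t => Ideal.Quotient.lift_mk I ψ hψI
  have hinj : Function.Injective φn := by
    apply RingHom.lift_injective_of_ker_le_ideal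
    intro t ht v hv
    have h1 : ψ t = 0 := RingHom.mem_ker.mp ht
    have h2 := congrArg (fun f : Module.End ℂ Vn => ((f ⟨v, hv⟩ : Vn) : V)) h1
    exact h2
  have hfin : Module.Finite ℤ (T ⧸ I) :=
    Module.Finite.of_surjective (Ideal.Quotient.mkₐ ℤ I).toLinearMap
      (Ideal.Quotient.mkₐ_surjective ℤ I)
  -- the polynomial ring
  let ρ : MvPolynomial ℕ ℤ →+* T ⧸ I :=
    (MvPolynomial.aeval (fun ℓ => Ideal.Quotient.mk I (tG ℓ))).toRingHom
  let ev : MvPolynomial ℕ ℤ →+* ZMod p := (MvPolynomial.aeval ab).toRingHom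
  have hevs : Function.Surjective ev := by
    intro z
    obtain ⟨n, rfl⟩ := ZMod.intCast_surjective z
    exact ⟨(n : MvPolynomial ℕ ℤ), map_intCast ev n⟩
  have hPmax : (RingHom.ker ev).IsMaximal := RingHom.ker_isMaximal_of_surjective ev hevs
  let _ : Algebra (MvPolynomial ℕ ℤ) (T ⧸ I) := ρ.toAlgebra
  have hint : Algebra.IsIntegral (MvPolynomial ℕ ℤ) (T ⧸ I) := by
    have h0 : Algebra.IsIntegral ℤ (T ⧸ I) := Algebra.IsIntegral.of_finite ℤ (T ⧸ I)
    constructor
    intro x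
    have hx : IsIntegral ℤ x := Algebra.IsIntegral.isIntegral x
    exact hx.tower_top
  have hker : RingHom.ker (algebraMap (MvPolynomial ℕ ℤ) (T ⧸ I)) ≤ RingHom.ker ev := by
    intro x hx
    have hx' : ρ x = 0 := hx
    obtain ⟨P, rfl⟩ := toMv_surjective x
    rw [RingHom.mem_ker]
    have h1 : ev (toMv P) = FreeAlgebra.lift ℤ ab P := aeval_toMv ab P
    rw [h1]
    apply hev
    have h2 : ρ (toMv P) = FreeAlgebra.lift ℤ (fun ℓ => Ideal.Quotient.mk I (tG ℓ)) P :=
      aeval_toMv _ P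
    have h3 : FreeAlgebra.lift ℤ (fun ℓ => Ideal.Quotient.mk I (tG ℓ)) P =
        Ideal.Quotient.mk I (FreeAlgebra.lift ℤ tG P) := by
      have h : FreeAlgebra.lift ℤ (fun ℓ => Ideal.Quotient.mk I (tG ℓ)) =
          (Ideal.Quotient.mkₐ ℤ I).comp (FreeAlgebra.lift ℤ tG) := by
        apply FreeAlgebra.hom_ext
        funext ℓ
        simp
      exact DFunLike.congr_fun h P
    rw [h2, h3, Ideal.Quotient.eq_zero_iff_mem] at hx'
    exact hx'
  obtain ⟨Q, hQmax, hQ⟩ := Ideal.exists_ideal_over_maximal_of_isIntegral (S := T ⧸ I)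
    (RingHom.ker ev) hker
  have hQprime : Q.IsPrime := hQmax.isPrime
  have hQmem : ∀ x : MvPolynomial ℕ ℤ, ev x = 0 → ρ x ∈ Q := by
    intro x hx
    have : x ∈ Ideal.comap (algebraMap (MvPolynomial ℕ ℤ) (T ⧸ I)) Q := by
      rw [hQ]
      exact hx
    exact this
  obtain ⟨v, χ, hv0, hχ, hkerχ⟩ := exists_eigen_character_ker_le φn hinj Q
  obtain ⟨χ', 𝔪', hχ', hmax', hmem⟩ := exists_maximal_over χ Q hkerχ
  refine ⟨v, χ.comp (Ideal.Quotient.mk I), χ'.comp (Ideal.Quotient.mk I), 𝔪', v.2, ?_, ?_, ?_, hmax',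
    ?_, ?_, ?_⟩
  · intro h0
    exact hv0 (Subtype.ext h0)
  · intro t
    have h1 := hχ (Ideal.Quotient.mk I t)
    rw [hφn] at h1
    have h2 := congrArg (Subtype.val : Vn → V) h1
    rw [hψ] at h2
    exact h2
  · intro t
    exact hχ' _
  · have h1 : ev (p : MvPolynomial ℕ ℤ) = 0 := by
      rw [map_natCast]
      exact ZMod.natCast_self p
    have h2 := hmem _ (hQmem _ h1)
    rwa [map_natCast, map_natCast] at h2
  · intro t ht
    have h1 : Ideal.Quotient.mk I t = 0 := Ideal.Quotient.eq_zero_iff_mem.mpr ht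
    rw [RingHom.comp_apply, h1, map_zero]
  · intro ℓ b hb
    have h1 : ev (MvPolynomial.X ℓ - (b : MvPolynomial ℕ ℤ)) = 0 := by
      rw [map_sub, map_intCast, hb]
      have : ev (MvPolynomial.X ℓ) = ab ℓ := MvPolynomial.aeval_X ab ℓ
      rw [this, sub_self]
    have h2 := hmem _ (hQmem _ h1)
    have h3 : ρ (MvPolynomial.X ℓ) = Ideal.Quotient.mk I (tG ℓ) := MvPolynomial.aeval_X _ ℓ
    rw [map_sub, map_intCast, h3, map_sub, map_intCast] at h2
    exact h2

end Fermat.Agent.S41.Alg
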