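import Fermat.Agent.NEW.Normalize
import Fermat.Agent.NEW.Mask
import Fermat.Agent.S22
import Fermat.Agent.S41.Alg.Char

set_option autoImplicit false

/-!
# S41 / T7 + T8c : from a character mod `p` of the Hecke algebra of `Vnew = ker (U_q ^ 2 - 1)` to a normalised eigenform
-/

namespace Fermat.Agent.S41.Alg

open CongruenceSubgroup ModularFormClass
open Fermat.Agent.S49

/-- a common eigenvector of the full Hecke algebra can be normalised (second half of `S49.result`). -/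
theorem normalize_of_character (N : ℕ) [NeZero N] (v : CuspForm (Gamma0 N) 2) (hv0 : v ≠ 0)
    (χ : TT N →+* ℂ) (hχ : ∀ t, phi N t v = χ t • v) :
    ∃ g : CuspForm (Gamma0 N) 2, g.IsNormalizedEigenform ∧
      (∀ (ℓ : ℕ) (hℓ : ℓ.Prime) (hℓN : ¬ ℓ ∣ N),
        qCoeff g ℓ = χ (CuspForm.heckeAlgebra.T hℓ hℓN (Set.notMem_empty ℓ))) ∧
      (∀ (ℓ : ℕ) (hℓ : ℓ.Prime) (hℓN : ℓ ∣ N),
        qCoeff g ℓ = χ (CuspForm.heckeAlgebra.U hℓ hℓN (Set.notMem_empty ℓ))) := by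
  have hT : ∀ (ℓ : ℕ) (hℓ : ℓ.Prime) (hℓN : ¬ ℓ ∣ N) (n : ℕ),
      qCoeff v (ℓ * n) + (ℓ : ℂ) * (if ℓ ∣ n then qCoeff v (n / ℓ) else 0) =
        χ (CuspForm.heckeAlgebra.T hℓ hℓN (Set.notMem_empty ℓ)) * qCoeff v n := by
    intro ℓ hℓ hℓN n
    rw [← qCoeff_heckeTLin hℓ hℓN, ← qCoeff_smul', ← hχ]
    rfl
  have hUU : ∀ (ℓ : ℕ) (hℓ : ℓ.Prime) (hℓN : ℓ ∣ N) (n : ℕ),
      qCoeff v (ℓ * n) =
        χ (CuspForm.heckeAlgebra.U hℓ hℓN (Set.notMem_empty ℓ)) * qCoeff v n := by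
    intro ℓ hℓ hℓN n
    rw [← qCoeff_heckeULin hℓ hℓN, ← qCoeff_smul', ← hχ]
    rfl
  let e : ℕ → ℂ := fun ℓ => if ℓ ∣ N then 0 else (ℓ : ℂ)
  have hrec : ∀ ℓ : ℕ, ℓ.Prime → ∃ lam : ℂ, ∀ n : ℕ,
      qCoeff v (ℓ * n) + e ℓ * (if ℓ ∣ n then qCoeff v (n / ℓ) else 0) = lam * qCoeff v n := by
    intro ℓ hℓ
    by_cases hℓN : ℓ ∣ N
    · refine ⟨χ (CuspForm.heckeAlgebra.U hℓ hℓN (Set.notMem_empty ℓ)), fun n => ?_⟩
      simp only [e, if_pos hℓN, zero_mul, add_zero]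
      exact hUU ℓ hℓ hℓN n
    · refine ⟨χ (CuspForm.heckeAlgebra.T hℓ hℓN (Set.notMem_empty ℓ)), fun n => ?_⟩
      simp only [e, if_neg hℓN]
      exact hT ℓ hℓ hℓN n
  have hc1 : qCoeff v 1 ≠ 0 := by
    intro h1
    apply hv0
    apply eq_zero_of_qCoeff
    intro n
    rcases Nat.eq_zero_or_pos n with rfl | hn
    · exact qCoeff_zero_index v
    · exact coeff_eq_zero_of_one_eq_zero hrec h1 n hn
  have hsys := normalized_eigensystem hrec hc1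
  let f' : CuspForm (Gamma0 N) 2 := (qCoeff v 1)⁻¹ • v
  have hfc : ∀ n, qCoeff f' n = (qCoeff v 1)⁻¹ * qCoeff v n := fun n => qCoeff_smul' _ _ _
  have hnorm : f'.IsNormalizedEigenform := by
    refine ⟨?_, ?_, ?_, ?_⟩
    · rw [hfc]; exact hsys.1
    · intro m n hmn
      rw [hfc, hfc, hfc]
      exact eigensystem_mul_of_coprime hsys m n hmn
    · intro p r hp hpN
      rw [hfc, hfc, hfc, hfc]
      have := eigensystem_prime_pow hsys p r hp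
      simp only [e, if_neg hpN] at this
      exact this
    · intro p r hp hpN
      rw [hfc, hfc, hfc]
      have := eigensystem_prime_pow hsys p r hp
      simp only [e, if_pos hpN, zero_mul, sub_zero] at this
      exact this
  refine ⟨f', hnorm, ?_, ?_⟩
  · intro ℓ hℓ hℓN
    rw [hfc]
    have h1 := hT ℓ hℓ hℓN 1
    have hnd : ¬ ℓ ∣ 1 := fun hd => hℓ.one_lt.ne' (Nat.dvd_one.mp hd)
    rw [if_neg hnd, mul_zero, add_zero, mul_one] at h1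
    rw [h1]
    field_simp
  · intro ℓ hℓ hℓN
    rw [hfc]
    have h1 := hUU ℓ hℓ hℓN 1
    rw [mul_one] at h1
    rw [h1]
    field_simp

/-- **T7c.**  `Vnew = {v | U_q (U_q v) = v}`.  If every (masked) polynomial in the `T_ℓ`, `ℓ ∈ G`, which kills `Vnew`
vanishes at `(a ℓ mod p)`, then there is a normalised eigenform `g` with `a_q(g) ^ 2 = 1` congruent to `a`. -/
theorem exists_eigenform (M : ℕ) [NeZero M] (p q : ℕ) (hp : p.Prime) (hq : q.Prime) (hqM : q ∣ M)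
    (G : ℕ → Prop) (hG : ∀ ℓ, G ℓ → ℓ.Prime ∧ ¬ ℓ ∣ M) (a : ℕ → ℤ)
    (hev : ∀ P : FreeAlgebra ℤ ℕ,
      (∀ v : CuspForm (Gamma0 M) 2,
        CuspForm.heckeULin 2 hqM (CuspForm.heckeULin 2 hqM v) = v →
          FreeAlgebra.lift ℤ (S31.heckeFam M) (NEW.mask G P) v = 0) →
      FreeAlgebra.lift ℤ (fun ℓ => ((a ℓ : ℤ) : ZMod p)) (NEW.mask G P) = 0) :
    ∃ (g : CuspForm (Gamma0 M) 2) (𝔪' : Ideal (integralClosure ℤ ℂ)),
      g.IsNormalizedEigenform ∧ 𝔪'.IsMaximal ∧ (p : integralClosure ℤ ℂ) ∈ 𝔪' ∧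
      (∀ ℓ, G ℓ → ∃ c : integralClosure ℤ ℂ, (c : ℂ) = qCoeff g ℓ ∧
        c - ((a ℓ : ℤ) : integralClosure ℤ ℂ) ∈ 𝔪') ∧
      qCoeff g q ^ 2 = 1 := by
  classical
  have : Fact p.Prime := ⟨hp⟩
  have hfin : Module.Finite ℤ (TT M) := Fermat.Agent.S22.result M 2 ∅
  let Uq : TT M := CuspForm.heckeAlgebra.U hq hqM (Set.notMem_empty q)
  have hUq : ∀ v, phi M Uq v = CuspForm.heckeULin 2 hqM v := fun v => rfl
  let Vn : Submodule ℂ (CuspForm (Gamma0 M) 2) := LinearMap.ker (phi M (Uq * Uq - 1))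
  have hVn : ∀ v, v ∈ Vn ↔ CuspForm.heckeULin 2 hqM (CuspForm.heckeULin 2 hqM v) = v := by
    intro v
    rw [LinearMap.mem_ker, map_sub, map_mul, map_one, LinearMap.sub_apply, Module.End.mul_apply,
      Module.End.one_apply, sub_eq_zero, hUq, hUq]
  have hst : ∀ t : TT M, ∀ v ∈ Vn, phi M t v ∈ Vn := by
    intro t v hv
    rw [LinearMap.mem_ker] at hv ⊢
    rw [← Module.End.mul_apply, ← map_mul, mul_comm, map_mul, Module.End.mul_apply, hv, map_zero]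
  let tG : ℕ → TT M := fun ℓ =>
    if h : G ℓ then CuspForm.heckeAlgebra.T (hG ℓ h).1 (hG ℓ h).2 (Set.notMem_empty ℓ) else 0
  let ab : ℕ → ZMod p := fun ℓ => if G ℓ then ((a ℓ : ℤ) : ZMod p) else 0
  have hphi : ∀ P : FreeAlgebra ℤ ℕ, phi M (FreeAlgebra.lift ℤ tG P) =
      FreeAlgebra.lift ℤ (S31.heckeFam M) (NEW.mask G P) := by
    intro P
    rw [NEW.lift_mask]
    have h : (CuspForm.heckeAlgebra M 2 (∅ : Set ℕ)).val.comp (FreeAlgebra.lift ℤ tG) =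
        FreeAlgebra.lift ℤ (fun ℓ => if G ℓ then S31.heckeFam M ℓ else 0) := by
      apply FreeAlgebra.hom_ext
      funext ℓ
      simp only [Function.comp_apply, AlgHom.comp_apply, FreeAlgebra.lift_ι_apply, tG]
      by_cases hGℓ : G ℓ
      · rw [dif_pos hGℓ, if_pos hGℓ]
        unfold S31.heckeFam
        rw [dif_pos (hG ℓ hGℓ)]
        rfl
      · rw [dif_neg hGℓ, if_neg hGℓ, map_zero]
    exact DFunLike.congr_fun h P
  have hev' : ∀ P : FreeAlgebra ℤ ℕ, (∀ v ∈ Vn, phi M (FreeAlgebra.lift ℤ tG P) v = 0) →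
      FreeAlgebra.lift ℤ ab P = 0 := by
    intro P hP
    have h1 := hev P (fun v hv => by rw [← hphi]; exact hP v ((hVn v).mpr hv))
    rw [NEW.lift_mask] at h1
    exact h1
  obtain ⟨v, χ, χ', 𝔪', hvV, hv0, hχ, hχ', hmax', hpm, hann, hcong⟩ :=
    exists_character_mod (phi M) Vn hst p tG ab hev'
  obtain ⟨g, hg, hgT, hgU⟩ := normalize_of_character M v hv0 χ hχ
  refine ⟨g, 𝔪', hg, hmax', hpm, ?_, ?_⟩
  · intro ℓ hGℓ
    refine ⟨χ' (tG ℓ), ?_, hcong ℓ (a ℓ) ?_⟩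
    · rw [hχ', hgT ℓ (hG ℓ hGℓ).1 (hG ℓ hGℓ).2]
      simp only [tG, dif_pos hGℓ]
    · simp only [ab, if_pos hGℓ]
  · rw [hgU q hq hqM]
    have h1 : χ (Uq * Uq - 1) = 0 := hann _ (fun v hv => hv)
    rw [map_sub, map_mul, map_one, sub_eq_zero] at h1
    rw [pow_two]
    exact h1

end Fermat.Agent.S41.Alg
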