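import Fermat.Agent.S41.Alg.Sat
import Fermat.Agent.S41.Alg.Eigen

set_option autoImplicit false

/-!
# S41 / T7 : the output of the chapter

`L`, `L'` are abstract here (Top: `L = NV.LatN N`, `L' = NV.LatN M`, `TL ℓ = latT N ℓ`, `TL' ℓ = latT M ℓ`).
-/

namespace Fermat.Agent.S41.Alg

open CongruenceSubgroup ModularFormClass

/-- **T7.** -/
theorem t7 (M : ℕ) [NeZero M] (p q : ℕ) (hp : p.Prime) (hq : q.Prime) (hqM : q ∣ M)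
    (G : ℕ → Prop) (hG : ∀ ℓ, G ℓ → ℓ.Prime ∧ ¬ ℓ ∣ M) (a : ℕ → ℤ)
    {L L' : Type} [AddCommGroup L] [AddCommGroup L']
    (htf : ∀ h : L', p • h = 0 → h = 0)
    (r : L × L →+ L') (TL : ℕ → Module.End ℤ L) (TL' : ℕ → Module.End ℤ L')
    -- one auxiliary prime (E6), (T2: `r` commutes with `T_ℓ₀`), (E3)
    (ℓ₀ : ℕ) (hℓ₀ : G ℓ₀) (hne : ((a ℓ₀ : ℤ) : ZMod p) ≠ (ℓ₀ : ZMod p) + 1)
    (hrT : ∀ u : L × L, TL' ℓ₀ (r u) = r (TL ℓ₀ u.1, TL ℓ₀ u.2))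
    (hE3 : ∀ u : L × L, (∃ h : L', r u = p • h) →
      ∃ u' : L × L, (TL ℓ₀ u.1 - (ℓ₀ + 1) • u.1, TL ℓ₀ u.2 - (ℓ₀ + 1) • u.2) = p • u')
    -- the functional (E4)
    (Lt : L' →+ ZMod p) (hLt : Lt ≠ 0) (hLr : ∀ u, Lt (r u) = 0)
    (hLT : ∀ ℓ, G ℓ → ∀ h, Lt (TL' ℓ h) = ((a ℓ : ℤ) : ZMod p) * Lt h)
    -- (E7) + (E8)
    (hlink : ∀ P : FreeAlgebra ℤ ℕ,
      (∀ v : CuspForm (Gamma0 M) 2,
        CuspForm.heckeULin 2 hqM (CuspForm.heckeULin 2 hqM v) = v →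
          FreeAlgebra.lift ℤ (S31.heckeFam M) (NEW.mask G P) v = 0) →
      ∀ h : L', ∃ n : ℕ, n ≠ 0 ∧ ∃ u, n • (FreeAlgebra.lift ℤ TL' (NEW.mask G P) h) = r u) :
    ∃ (g : CuspForm (Gamma0 M) 2) (𝔪' : Ideal (integralClosure ℤ ℂ)),
      g.IsNormalizedEigenform ∧ 𝔪'.IsMaximal ∧ (p : integralClosure ℤ ℂ) ∈ 𝔪' ∧
      (∀ ℓ, G ℓ → ∃ c : integralClosure ℤ ℂ, (c : ℂ) = qCoeff g ℓ ∧
        c - ((a ℓ : ℤ) : integralClosure ℤ ℂ) ∈ 𝔪') ∧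
      qCoeff g q ^ 2 = 1 := by
  classical
  have : Fact p.Prime := ⟨hp⟩
  apply exists_eigenform M p q hp hq hqM G hG a
  intro P hP
  rw [NEW.lift_mask]
  let T'' : ℕ → Module.End ℤ L' := fun ℓ => if G ℓ then TL' ℓ else 0
  have hLT' : ∀ ℓ h, Lt (T'' ℓ h) = (if G ℓ then ((a ℓ : ℤ) : ZMod p) else 0) * Lt h := by
    intro ℓ h
    by_cases hGℓ : G ℓ
    · simp only [T'', if_pos hGℓ]
      exact hLT ℓ hGℓ h
    · simp only [T'', if_neg hGℓ, LinearMap.zero_apply, map_zero, zero_mul]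
  apply eval_eq_zero p T'' _ Lt hLt hLT' P
  intro h
  have e1 : FreeAlgebra.lift ℤ T'' P = FreeAlgebra.lift ℤ TL' (NEW.mask G P) :=
    (NEW.lift_mask TL' G P).symm
  rw [e1]
  obtain ⟨n, hn, hu⟩ := hlink P hP h
  let D : L →+ L := (TL ℓ₀ - (ℓ₀ + 1) • (1 : Module.End ℤ L)).toAddMonoidHom
  let D' : L' →+ L' := (TL' ℓ₀ - (ℓ₀ + 1) • (1 : Module.End ℤ L')).toAddMonoidHom
  have hD : ∀ x, D x = TL ℓ₀ x - (ℓ₀ + 1) • x := fun x => rfl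
  have hD' : ∀ x, D' x = TL' ℓ₀ x - (ℓ₀ + 1) • x := fun x => rfl
  refine functional_kills_sat p htf r D D' ?_ ?_ Lt hLr
    (((a ℓ₀ : ℤ) : ZMod p) - ((ℓ₀ : ZMod p) + 1)) (sub_ne_zero.mpr hne) ?_ _ n hn hu
  · intro u
    rw [hD', hrT, ← map_nsmul, ← map_sub, hD, hD]
    rfl
  · intro u hu'
    simp only [hD]
    exact hE3 u hu'
  · intro x
    rw [hD', map_sub, map_nsmul, hLT ℓ₀ hℓ₀, nsmul_eq_mul, sub_mul]
    push_cast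
    ring

end Fermat.Agent.S41.Alg
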