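import Fermat.Agent.NEW.Mask

set_option autoImplicit false

/-!
# S41 / T7 (lattice algebra), part 1 : abstract statements (Mathlib + `NEW.mask` only)

* `functional_kills_sat` : a functional `Lt : L' → ℤ/p` which kills `R = r (L × L)` and is an eigenvector of
  `D'` with a non zero eigenvalue kills the saturation of `R`, provided (E3) `r u ∈ p L' ⟹ D u ∈ p (L × L)`.
* `eval_eq_zero` : a noncommutative polynomial `P` in the operators such that `Lt ∘ P(T') = 0` has `P(a) = 0`.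
-/

namespace Fermat.Agent.S41.Alg

theorem pow_smul_mem {L L' : Type*} [AddCommGroup L] [AddCommGroup L'] (p : ℕ)
    (htf : ∀ h : L', p • h = 0 → h = 0)
    (r : L × L →+ L') (D : L →+ L) (D' : L' →+ L')
    (hrD : ∀ u : L × L, D' (r u) = r (D u.1, D u.2))
    (hE3 : ∀ u : L × L, (∃ h : L', r u = p • h) → ∃ u' : L × L, (D u.1, D u.2) = p • u') :
    ∀ (k : ℕ) (h : L'), (∃ u, p ^ k • h = r u) → ∃ u, (D'^[k]) h = r u := by
  intro k
  induction k with
  | zero =>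
    rintro h ⟨u, hu⟩
    exact ⟨u, by simpa using hu⟩
  | succ k ih =>
    rintro h ⟨u, hu⟩
    obtain ⟨u', hu'⟩ := hE3 u ⟨p ^ k • h, by rw [← hu, smul_smul, pow_succ']⟩
    have h1 : p • (p ^ k • D' h - r u') = 0 := by
      rw [smul_sub, smul_smul, ← pow_succ', ← map_nsmul D', hu, hrD, hu', map_nsmul, sub_self]
    have h2 : p ^ k • D' h = r u' := sub_eq_zero.mp (htf _ h1)
    obtain ⟨w, hw⟩ := ih (D' h) ⟨u', h2⟩
    exact ⟨w, by rw [Function.iterate_succ_apply, hw]⟩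

theorem functional_kills_sat {L L' : Type*} [AddCommGroup L] [AddCommGroup L'] (p : ℕ)
    [Fact p.Prime] (htf : ∀ h : L', p • h = 0 → h = 0)
    (r : L × L →+ L') (D : L →+ L) (D' : L' →+ L')
    (hrD : ∀ u : L × L, D' (r u) = r (D u.1, D u.2))
    (hE3 : ∀ u : L × L, (∃ h : L', r u = p • h) → ∃ u' : L × L, (D u.1, D u.2) = p • u')
    (Lt : L' →+ ZMod p) (hLr : ∀ u, Lt (r u) = 0) (c : ZMod p) (hc : c ≠ 0)
    (hLD : ∀ h, Lt (D' h) = c * Lt h)
    (h : L') (n : ℕ) (hn : n ≠ 0) (hh : ∃ u, n • h = r u) : Lt h = 0 := by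
  have hp : p.Prime := Fact.out
  obtain ⟨k, n', hn', rfl⟩ := Nat.exists_eq_pow_mul_and_not_dvd hn p hp.ne_one
  obtain ⟨u, hu⟩ := hh
  obtain ⟨w, hw⟩ := pow_smul_mem p htf r D D' hrD hE3 k (n' • h) ⟨u, by rw [← hu, smul_smul]⟩
  have hiter : ∀ (j : ℕ) (x : L'), Lt ((D'^[j]) x) = c ^ j * Lt x := by
    intro j
    induction j with
    | zero => intro x; simp
    | succ j ih => intro x; rw [Function.iterate_succ_apply, ih, hLD, pow_succ, mul_assoc]
  have h1 : c ^ k * Lt (n' • h) = 0 := by rw [← hiter, hw, hLr]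
  have h2 : Lt (n' • h) = 0 := (mul_eq_zero.mp h1).resolve_left (pow_ne_zero k hc)
  rw [map_nsmul, nsmul_eq_mul] at h2
  refine (mul_eq_zero.mp h2).resolve_left ?_
  intro h0
  exact hn' ((ZMod.natCast_eq_zero_iff _ _).mp h0)

theorem functional_lift {L' : Type*} [AddCommGroup L'] (p : ℕ)
    (T' : ℕ → Module.End ℤ L') (a : ℕ → ZMod p) (Lt : L' →+ ZMod p)
    (hLT : ∀ ℓ h, Lt (T' ℓ h) = a ℓ * Lt h) (P : FreeAlgebra ℤ ℕ) (h : L') :
    Lt (FreeAlgebra.lift ℤ T' P h) = FreeAlgebra.lift ℤ a P * Lt h := by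
  induction P using FreeAlgebra.induction generalizing h with
  | grade0 c =>
    rw [AlgHom.commutes, AlgHom.commutes, Algebra.algebraMap_eq_smul_one,
      Algebra.algebraMap_eq_smul_one, LinearMap.smul_apply, Module.End.one_apply, map_zsmul,
      smul_mul_assoc, one_mul]
  | grade1 ℓ => rw [FreeAlgebra.lift_ι_apply, FreeAlgebra.lift_ι_apply, hLT]
  | mul x y hx hy => rw [map_mul, map_mul, Module.End.mul_apply, hx, hy, mul_assoc]
  | add x y hx hy => rw [map_add, map_add, LinearMap.add_apply, map_add, hx, hy, add_mul]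

theorem eval_eq_zero {L' : Type*} [AddCommGroup L'] (p : ℕ) [Fact p.Prime]
    (T' : ℕ → Module.End ℤ L') (a : ℕ → ZMod p) (Lt : L' →+ ZMod p) (hLt : Lt ≠ 0)
    (hLT : ∀ ℓ h, Lt (T' ℓ h) = a ℓ * Lt h)
    (P : FreeAlgebra ℤ ℕ) (hP : ∀ h, Lt (FreeAlgebra.lift ℤ T' P h) = 0) :
    FreeAlgebra.lift ℤ a P = 0 := by
  obtain ⟨h, hh⟩ : ∃ h, Lt h ≠ 0 := by
    by_contra hcon
    push Not at hcon
    exact hLt (AddMonoidHom.ext hcon)
  have h1 := functional_lift p T' a Lt hLT P h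
  rw [hP] at h1
  exact (mul_eq_zero.mp h1.symm).resolve_right hh

end Fermat.Agent.S41.Alg
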